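import Mathlib
import Fermat.Agent.LT.T7.H62.RigidWhit
import Fermat.Agent.LT.H129.HeckeLevel

/-!
# Row LT, tower T7, node T7.14 `RigidC`, leaf T7.14.6b.5 `TorusAsmC`: ideles by components

OFF-MAIN (helper550, 2nd seat of row 1832).  On `LT/T7/H62/RigidWhit.lean` (helper62) and
`LT/H129/HeckeLevel.lean` (helper129), byte-identical copies.

* `mkIdT550 a b hb` : the idele with components `a w` at the infinite places, `b v` at the finite
  places; `repFT550 y v t` : the idele `y` with the component at `v` replaced by `t`;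
  `atFT550 v t` : the idele supported at `v`; `glueT550 S y c` : components of `y` on `S`, of `c`
  elsewhere (`mixC550 : Rigid.MixC K`);
* `dgA` is multiplicative; `dgA u ∈ U(𝔪)` for a unit idele `u` which is `1` at the infinite
  places and at the primes of `𝔪`.
-/

set_option autoImplicit false

open IsDedekindDomain NumberField MeasureTheory AutomorphicForm
open Fermat.Agent.LT.H556.A0
open Fermat.Agent.LT.H129
open Fermat.Agent.LT.T7 Fermat.Agent.LT.T7.Rigid

noncomputable section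

namespace Fermat.Agent.LT.T7.H550

variable {K : Type} [Field K] [NumberField K]

/-! ## 1. Components of ideles -/

theorem adele_extT550 {x y : Adl K} (hI : ∀ w : InfinitePlace K, x.1 w = y.1 w)
    (hF : ∀ v : HeightOneSpectrum (𝓞 K), x.2 v = y.2 v) : x = y :=
  Prod.ext (funext hI) (RestrictedProduct.ext _ _ hF)

theorem idele_extT550 {y z : (Adl K)ˣ}
    (hI : ∀ w : InfinitePlace K, (y : Adl K).1 w = (z : Adl K).1 w)
    (hF : ∀ v : HeightOneSpectrum (𝓞 K), (y : Adl K).2 v = (z : Adl K).2 v) : y = z :=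
  Units.ext (adele_extT550 hI hF)

/-- The component of an idele at a finite place, as a unit. -/
def uF550 (v : HeightOneSpectrum (𝓞 K)) : (Adl K)ˣ →* (v.adicCompletion K)ˣ :=
  Units.map (evF129 v).toMonoidHom

/-- The component of an idele at an infinite place, as a unit. -/
def uI550 (w : InfinitePlace K) : (Adl K)ˣ →* (w.Completion)ˣ :=
  Units.map (evI129 w).toMonoidHom

theorem uF_val550 (v : HeightOneSpectrum (𝓞 K)) (c : (Adl K)ˣ) :
    ((uF550 v c : (v.adicCompletion K)ˣ) : v.adicCompletion K) = (c : Adl K).2 v := rfl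

theorem uI_val550 (w : InfinitePlace K) (c : (Adl K)ˣ) :
    ((uI550 w c : (w.Completion)ˣ) : w.Completion) = (c : Adl K).1 w := rfl

theorem comp_mulFT550 (v : HeightOneSpectrum (𝓞 K)) (y z : (Adl K)ˣ) :
    ((y * z : (Adl K)ˣ) : Adl K).2 v = (y : Adl K).2 v * (z : Adl K).2 v := by
  rw [← uF_val550, ← uF_val550, ← uF_val550, map_mul, Units.val_mul]

theorem comp_mulIT550 (w : InfinitePlace K) (y z : (Adl K)ˣ) :
    ((y * z : (Adl K)ˣ) : Adl K).1 w = (y : Adl K).1 w * (z : Adl K).1 w := by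
  rw [← uI_val550, ← uI_val550, ← uI_val550, map_mul, Units.val_mul]

theorem comp_oneFT550 (v : HeightOneSpectrum (𝓞 K)) : (((1 : (Adl K)ˣ)) : Adl K).2 v = 1 := by
  rw [← uF_val550, map_one, Units.val_one]

theorem comp_oneIT550 (w : InfinitePlace K) : (((1 : (Adl K)ˣ)) : Adl K).1 w = 1 := by
  rw [← uI_val550, map_one, Units.val_one]

theorem comp_invFT550 (v : HeightOneSpectrum (𝓞 K)) (y : (Adl K)ˣ) :
    ((y⁻¹ : (Adl K)ˣ) : Adl K).2 v = ((y : Adl K).2 v)⁻¹ := by
  rw [← uF_val550, ← uF_val550, map_inv, Units.val_inv_eq_inv_val]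

theorem comp_invIT550 (w : InfinitePlace K) (y : (Adl K)ˣ) :
    ((y⁻¹ : (Adl K)ˣ) : Adl K).1 w = ((y : Adl K).1 w)⁻¹ := by
  rw [← uI_val550, ← uI_val550, map_inv, Units.val_inv_eq_inv_val]

theorem comp_powFT550 (v : HeightOneSpectrum (𝓞 K)) (y : (Adl K)ˣ) (n : ℕ) :
    ((y ^ n : (Adl K)ˣ) : Adl K).2 v = ((y : Adl K).2 v) ^ n := by
  rw [← uF_val550, ← uF_val550, map_pow, Units.val_pow_eq_pow_val]

theorem comp_powIT550 (w : InfinitePlace K) (y : (Adl K)ˣ) (n : ℕ) :
    ((y ^ n : (Adl K)ˣ) : Adl K).1 w = ((y : Adl K).1 w) ^ n := by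
  rw [← uI_val550, ← uI_val550, map_pow, Units.val_pow_eq_pow_val]

theorem comp_ne_zeroFT550 (v : HeightOneSpectrum (𝓞 K)) (y : (Adl K)ˣ) :
    (y : Adl K).2 v ≠ 0 := by
  rw [← uF_val550]
  exact (uF550 v y).ne_zero

theorem val_comp_ne_zeroT550 (v : HeightOneSpectrum (𝓞 K)) (y : (Adl K)ˣ) :
    Valued.v ((y : Adl K).2 v) ≠ 0 :=
  (Valuation.ne_zero_iff _).2 (comp_ne_zeroFT550 v y)

/-- The components of an idele are units of `𝒪_v` at almost all `v`. -/
theorem eventually_unitT550 (c : (Adl K)ˣ) :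
    ∀ᶠ v : HeightOneSpectrum (𝓞 K) in Filter.cofinite,
      Valued.v (((uF550 v c : (v.adicCompletion K)ˣ)) : v.adicCompletion K) = 1 := by
  have h1 : ∀ᶠ v : HeightOneSpectrum (𝓞 K) in Filter.cofinite,
      (c : Adl K).2 v ∈ v.adicCompletionIntegers K := (c : Adl K).2.2
  have h2 : ∀ᶠ v : HeightOneSpectrum (𝓞 K) in Filter.cofinite,
      ((c⁻¹ : (Adl K)ˣ) : Adl K).2 v ∈ v.adicCompletionIntegers K :=
    ((c⁻¹ : (Adl K)ˣ) : Adl K).2.2
  filter_upwards [h1, h2] with v hv1 hv2
  rw [HeightOneSpectrum.mem_adicCompletionIntegers] at hv1 hv2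
  rw [comp_invFT550, map_inv₀] at hv2
  rw [uF_val550]
  exact le_antisymm hv1 ((inv_le_one₀ (zero_lt_iff.2 (val_comp_ne_zeroT550 v c))).1 hv2)

theorem finite_badT550 (c : (Adl K)ˣ) :
    {v : HeightOneSpectrum (𝓞 K) | ¬ Valued.v ((c : Adl K).2 v) = 1}.Finite :=
  Filter.eventually_cofinite.1 (eventually_unitT550 c)

/-! ## 2. The idele with given components -/

/-- The idele with components `a w` at the infinite places and `b v` at the finite places. -/
def mkIdT550 (a : ∀ w : InfinitePlace K, (w.Completion)ˣ)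
    (b : ∀ v : HeightOneSpectrum (𝓞 K), (v.adicCompletion K)ˣ)
    (hb : ∀ᶠ v : HeightOneSpectrum (𝓞 K) in Filter.cofinite,
      Valued.v ((b v : (v.adicCompletion K)ˣ) : v.adicCompletion K) = 1) : (Adl K)ˣ where
  val := ((fun w => ((a w : (w.Completion)ˣ) : w.Completion)),
    ⟨fun v => ((b v : (v.adicCompletion K)ˣ) : v.adicCompletion K), by
      filter_upwards [hb] with v hv
      rw [SetLike.mem_coe, HeightOneSpectrum.mem_adicCompletionIntegers, hv]⟩)
  inv := ((fun w => (((a w)⁻¹ : (w.Completion)ˣ) : w.Completion)),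
    ⟨fun v => (((b v)⁻¹ : (v.adicCompletion K)ˣ) : v.adicCompletion K), by
      filter_upwards [hb] with v hv
      rw [SetLike.mem_coe, HeightOneSpectrum.mem_adicCompletionIntegers,
        Units.val_inv_eq_inv_val, map_inv₀, hv, inv_one]⟩)
  val_inv := by
    refine adele_extT550 (fun w => ?_) (fun v => ?_)
    · show ((a w : (w.Completion)ˣ) : w.Completion) * (((a w)⁻¹ : (w.Completion)ˣ) : w.Completion)
        = 1
      exact Units.mul_inv _
    · show ((b v : (v.adicCompletion K)ˣ) : v.adicCompletion K)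
        * (((b v)⁻¹ : (v.adicCompletion K)ˣ) : v.adicCompletion K) = 1
      exact Units.mul_inv _
  inv_val := by
    refine adele_extT550 (fun w => ?_) (fun v => ?_)
    · show (((a w)⁻¹ : (w.Completion)ˣ) : w.Completion) * ((a w : (w.Completion)ˣ) : w.Completion)
        = 1
      exact Units.inv_mul _
    · show (((b v)⁻¹ : (v.adicCompletion K)ˣ) : v.adicCompletion K)
        * ((b v : (v.adicCompletion K)ˣ) : v.adicCompletion K) = 1
      exact Units.inv_mul _

theorem mkId_FT550 (a : ∀ w : InfinitePlace K, (w.Completion)ˣ)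
    (b : ∀ v : HeightOneSpectrum (𝓞 K), (v.adicCompletion K)ˣ)
    (hb : ∀ᶠ v : HeightOneSpectrum (𝓞 K) in Filter.cofinite,
      Valued.v ((b v : (v.adicCompletion K)ˣ) : v.adicCompletion K) = 1)
    (v : HeightOneSpectrum (𝓞 K)) :
    ((mkIdT550 a b hb : (Adl K)ˣ) : Adl K).2 v
      = ((b v : (v.adicCompletion K)ˣ) : v.adicCompletion K) :=
  rfl

theorem mkId_IT550 (a : ∀ w : InfinitePlace K, (w.Completion)ˣ)
    (b : ∀ v : HeightOneSpectrum (𝓞 K), (v.adicCompletion K)ˣ)
    (hb : ∀ᶠ v : HeightOneSpectrum (𝓞 K) in Filter.cofinite,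
      Valued.v ((b v : (v.adicCompletion K)ˣ) : v.adicCompletion K) = 1)
    (w : InfinitePlace K) :
    ((mkIdT550 a b hb : (Adl K)ˣ) : Adl K).1 w = ((a w : (w.Completion)ˣ) : w.Completion) :=
  rfl

/-! ## 3. Gluing (`MixC`) -/

open scoped Classical in
theorem glue_auxT550 (S : Finset (HeightOneSpectrum (𝓞 K))) (y c : (Adl K)ˣ) :
    ∀ᶠ v : HeightOneSpectrum (𝓞 K) in Filter.cofinite,
      Valued.v (((if v ∈ S then uF550 v y else uF550 v c : (v.adicCompletion K)ˣ)) :
        v.adicCompletion K) = 1 := by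
  filter_upwards [eventually_unitT550 y, eventually_unitT550 c] with v h1 h2
  by_cases h : v ∈ S
  · rw [if_pos h]; exact h1
  · rw [if_neg h]; exact h2

open scoped Classical in
/-- The idele with the components of `y` on `S` and those of `c` at all the other places
(finite and infinite). -/
def glueT550 (S : Finset (HeightOneSpectrum (𝓞 K))) (y c : (Adl K)ˣ) : (Adl K)ˣ :=
  mkIdT550 (fun w => uI550 w c) (fun v => if v ∈ S then uF550 v y else uF550 v c)
    (glue_auxT550 S y c)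

open scoped Classical in
theorem glue_memT550 (S : Finset (HeightOneSpectrum (𝓞 K))) (y c : (Adl K)ˣ)
    {v : HeightOneSpectrum (𝓞 K)} (h : v ∈ S) :
    ((glueT550 S y c : (Adl K)ˣ) : Adl K).2 v = (y : Adl K).2 v := by
  unfold glueT550
  rw [mkId_FT550, if_pos h, uF_val550]

open scoped Classical in
theorem glue_not_memT550 (S : Finset (HeightOneSpectrum (𝓞 K))) (y c : (Adl K)ˣ)
    {v : HeightOneSpectrum (𝓞 K)} (h : v ∉ S) :
    ((glueT550 S y c : (Adl K)ˣ) : Adl K).2 v = (c : Adl K).2 v := by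
  unfold glueT550
  rw [mkId_FT550, if_neg h, uF_val550]

theorem glue_infT550 (S : Finset (HeightOneSpectrum (𝓞 K))) (y c : (Adl K)ˣ)
    (w : InfinitePlace K) : ((glueT550 S y c : (Adl K)ˣ) : Adl K).1 w = (c : Adl K).1 w := by
  unfold glueT550
  rw [mkId_IT550, uI_val550]

/-- **LEAF MIX** (`Rigid.MixC`), by the gluing. -/
theorem mixC550 (K : Type) [Field K] [NumberField K] : MixC K := fun S y y' =>
  ⟨glueT550 S y y', fun _ hv => glue_memT550 S y y' hv,
    fun _ hv => glue_not_memT550 S y y' hv, fun w => glue_infT550 S y y' w⟩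

/-! ## 4. Replacing one component -/

/-- The idele `y` with the component at the finite place `v` replaced by the one of `c`. -/
def repFT550 (y : (Adl K)ˣ) (v : HeightOneSpectrum (𝓞 K)) (c : (Adl K)ˣ) : (Adl K)ˣ :=
  glueT550 {v} c y

theorem repF_selfT550 (y : (Adl K)ˣ) (v : HeightOneSpectrum (𝓞 K)) (c : (Adl K)ˣ) :
    ((repFT550 y v c : (Adl K)ˣ) : Adl K).2 v = (c : Adl K).2 v :=
  glue_memT550 {v} c y (Finset.mem_singleton_self v)

theorem repF_neT550 (y : (Adl K)ˣ) {v v' : HeightOneSpectrum (𝓞 K)} (h : v' ≠ v)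
    (c : (Adl K)ˣ) : ((repFT550 y v c : (Adl K)ˣ) : Adl K).2 v' = (y : Adl K).2 v' :=
  glue_not_memT550 {v} c y (fun hm => h (Finset.mem_singleton.1 hm))

theorem repF_infT550 (y : (Adl K)ˣ) (v : HeightOneSpectrum (𝓞 K)) (c : (Adl K)ˣ)
    (w : InfinitePlace K) : ((repFT550 y v c : (Adl K)ˣ) : Adl K).1 w = (y : Adl K).1 w :=
  glue_infT550 {v} c y w

/-- The idele `y` with all the infinite components replaced by `1`. -/
def finPartT550 (y : (Adl K)ˣ) : (Adl K)ˣ :=
  mkIdT550 (fun _ => 1) (fun v => uF550 v y) (eventually_unitT550 y)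

theorem finPart_FT550 (y : (Adl K)ˣ) (v : HeightOneSpectrum (𝓞 K)) :
    ((finPartT550 y : (Adl K)ˣ) : Adl K).2 v = (y : Adl K).2 v := by
  unfold finPartT550
  rw [mkId_FT550, uF_val550]

theorem finPart_IT550 (y : (Adl K)ˣ) (w : InfinitePlace K) :
    ((finPartT550 y : (Adl K)ˣ) : Adl K).1 w = 1 := by
  unfold finPartT550
  rw [mkId_IT550, Units.val_one]

/-! ## 5. The torus -/

theorem dgA_mul550 (y z : (Adl K)ˣ) : dgA (y * z) = dgA y * dgA z := by
  apply Units.ext
  ext i j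
  fin_cases i <;> fin_cases j <;> simp [dgA, Matrix.mul_apply, Fin.sum_univ_two]

theorem dgA_inv550 (y : (Adl K)ˣ) : (dgA y)⁻¹ = dgA y⁻¹ := by
  apply Units.ext
  ext i j
  fin_cases i <;> fin_cases j <;> simp [dgA]

theorem finComp_dgA550 (v : HeightOneSpectrum (𝓞 K)) (y : (Adl K)ˣ) :
    finComp v (dgA y) = !![(y : Adl K).2 v, 0; 0, 1] := by
  ext i j
  fin_cases i <;> fin_cases j <;> rfl

theorem trivAtFin_dgA550 {v : HeightOneSpectrum (𝓞 K)} {y : (Adl K)ˣ}
    (h : (y : Adl K).2 v = 1) : TrivAtFin v (dgA y) := by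
  show finComp v (dgA y) = 1
  rw [finComp_dgA550, Matrix.one_fin_two, h]

theorem trivAtInf_dgA550 {w : InfinitePlace K} {y : (Adl K)ˣ}
    (h : (y : Adl K).1 w = 1) : TrivAtInf w (dgA y) := by
  intro i j
  fin_cases i <;> fin_cases j
  · exact h
  · rfl
  · rfl
  · rfl

/-- `diag(u, 1) ∈ U(𝔪)` for an idele `u` which is `1` at the infinite places and at the places
of `S`, and a unit at the other finite places (the primes of `𝔪` lie in `S`). -/
theorem inLevelGroup_dgA_unit550 {𝔪 : Ideal (𝓞 K)} {S : Finset (HeightOneSpectrum (𝓞 K))}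
    (hS : ∀ v : HeightOneSpectrum (𝓞 K), v.asIdeal ∣ 𝔪 → v ∈ S) {u : (Adl K)ˣ}
    (hI : ∀ w : InfinitePlace K, (u : Adl K).1 w = 1)
    (h1 : ∀ v ∈ S, (u : Adl K).2 v = 1)
    (h2 : ∀ v : HeightOneSpectrum (𝓞 K), v ∉ S → Valued.v ((u : Adl K).2 v) = 1) :
    InLevelGroup 𝔪 (dgA u) := by
  refine ⟨fun w => trivAtInf_dgA550 (hI w), fun v i j => ?_⟩
  rw [dgA_inv550, finComp_dgA550, finComp_dgA550, comp_invFT550]
  by_cases hv : v ∈ S
  · rw [h1 v hv, inv_one, ← Matrix.one_fin_two, sub_self]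
    exact ⟨zero_mem_idealClosure129 𝔪 v, zero_mem_idealClosure129 𝔪 v⟩
  · have hdiv : ¬ v.asIdeal ∣ 𝔪 := fun h => hv (hS v h)
    have hu : Valued.v ((u : Adl K).2 v) = 1 := h2 v hv
    have hu' : Valued.v (((u : Adl K).2 v)⁻¹) = 1 := by rw [map_inv₀, hu, inv_one]
    have key : ∀ x : v.adicCompletion K, Valued.v x = 1 → ∀ i j : Fin 2,
        ((!![x, 0; 0, 1] : Matrix (Fin 2) (Fin 2) (v.adicCompletion K)) - 1) i j
          ∈ idealClosure 𝔪 v := by
      intro x hx i j
      apply dense_ideal129 hdiv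
      fin_cases i <;> fin_cases j
      · show Valued.v (x - 1) ≤ 1
        refine le_trans (Valuation.map_sub _ _ _) (max_le (le_of_eq hx) ?_)
        rw [map_one]
      · show Valued.v ((0 : v.adicCompletion K) - 0) ≤ 1
        rw [sub_zero, map_zero]; exact zero_le_one
      · show Valued.v ((0 : v.adicCompletion K) - 0) ≤ 1
        rw [sub_zero, map_zero]; exact zero_le_one
      · show Valued.v ((1 : v.adicCompletion K) - 1) ≤ 1
        rw [sub_self, map_zero]; exact zero_le_one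
    exact ⟨key _ hu i j, key _ hu' i j⟩

end Fermat.Agent.LT.T7.H550

end
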