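import Mathlib
import Fermat.Agent.LT.T7.H550.IdeleKit

/-!
# Row LT, tower T7, node T7.14 `RigidC`, leaf T7.14.6b.5 `TorusAsmC`: the abstract core

OFF-MAIN (helper550, 2nd seat of row 1832).  `W : (Adl K)ˣ → ℂ` is ANY function on the ideles (in
the application `y ↦ whit ψ ν D φ (dgA y)`).

`torus_core550`: if `W` satisfies the Hecke recursion at the places outside `S` and is invariant
under the unit ideles supported outside `S`, then for every idele `z` with `z_∞ = 1`
`W z = W (z^S) · ∏ᶠ_{v ∉ S} locFactor v (a v) (ord_v z)`, `z^S` = the idele with the components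
of `z` on `S` and `1` elsewhere.
-/

set_option autoImplicit false

open IsDedekindDomain NumberField MeasureTheory AutomorphicForm
open Fermat.Agent.LT.H556.A0
open Fermat.Agent.LT.H129
open Fermat.Agent.LT.T7 Fermat.Agent.LT.T7.Rigid

noncomputable section

namespace Fermat.Agent.LT.T7.H550

variable {K : Type} [Field K] [NumberField K]

/-! ## 1. The exponent -/

theorem ordI_mul550 (v : HeightOneSpectrum (𝓞 K)) (y z : (Adl K)ˣ) :
    ordI v (y * z) = ordI v y + ordI v z := by
  unfold ordI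
  rw [comp_mulFT550, map_mul,
    WithZero.log_mul (val_comp_ne_zeroT550 v y) (val_comp_ne_zeroT550 v z)]
  ring

theorem ordI_inv550 (v : HeightOneSpectrum (𝓞 K)) (y : (Adl K)ˣ) :
    ordI v y⁻¹ = -ordI v y := by
  have h := ordI_mul550 v y y⁻¹
  have h1 : ordI v (1 : (Adl K)ˣ) = 0 := by
    unfold ordI
    rw [comp_oneFT550, map_one, WithZero.log_one, neg_zero]
  rw [mul_inv_cancel, h1] at h
  linarith

theorem ordI_of_comp_one550 {v : HeightOneSpectrum (𝓞 K)} {y : (Adl K)ˣ}
    (h : (y : Adl K).2 v = 1) : ordI v y = 0 := by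
  unfold ordI
  rw [h, map_one, WithZero.log_one, neg_zero]

theorem ordI_unif550 {v : HeightOneSpectrum (𝓞 K)} {t : (Adl K)ˣ} (ht : IsUnifIdele v t) :
    ordI v t = 1 := by
  unfold ordI
  rw [ht.2.2, WithZero.log_exp, neg_neg]

theorem ordI_pow550 (v : HeightOneSpectrum (𝓞 K)) (t : (Adl K)ˣ) (m : ℕ) :
    ordI v (t ^ m) = m * ordI v t := by
  induction m with
  | zero =>
    rw [pow_zero, Nat.cast_zero, zero_mul]
    unfold ordI
    rw [comp_oneFT550, map_one, WithZero.log_one, neg_zero]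
  | succ m ih =>
    rw [pow_succ, ordI_mul550, ih]
    push_cast
    ring

theorem val_eq_exp_ordI550 (v : HeightOneSpectrum (𝓞 K)) (y : (Adl K)ˣ) :
    Valued.v ((y : Adl K).2 v) = WithZero.exp (-ordI v y) := by
  unfold ordI
  rw [neg_neg, WithZero.exp_log (val_comp_ne_zeroT550 v y)]

theorem ordI_eq_zero_of_val550 {v : HeightOneSpectrum (𝓞 K)} {y : (Adl K)ˣ}
    (h : Valued.v ((y : Adl K).2 v) = 1) : ordI v y = 0 := by
  unfold ordI
  rw [h, WithZero.log_one, neg_zero]

theorem ordI_congr550 {v : HeightOneSpectrum (𝓞 K)} {y z : (Adl K)ˣ}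
    (h : (y : Adl K).2 v = (z : Adl K).2 v) : ordI v y = ordI v z := by
  unfold ordI
  rw [h]

/-! ## 2. The local factor -/

theorem nv_pos550 (v : HeightOneSpectrum (𝓞 K)) : 0 < nv v :=
  lt_of_lt_of_le one_pos (one_le_nv v)

theorem locFactor_neg550 (v : HeightOneSpectrum (𝓞 K)) (a : ℂ) {m : ℤ} (h : m < 0) :
    locFactor v a m = 0 := by
  unfold locFactor
  rw [if_neg (not_le.2 h)]

theorem locFactor_nat550 (v : HeightOneSpectrum (𝓞 K)) (a : ℂ) (m : ℕ) :
    locFactor v a (m : ℤ) = (((Real.sqrt (nv v))⁻¹ : ℝ) : ℂ) ^ m * hpoly a m := by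
  unfold locFactor
  rw [if_pos (Int.natCast_nonneg m), Int.toNat_natCast]
  congr 1
  have h0 : (0 : ℝ) ≤ nv v := (nv_pos550 v).le
  have e : nv v ^ (-((m : ℤ) : ℝ) / 2) = ((Real.sqrt (nv v))⁻¹) ^ m := by
    rw [Real.sqrt_eq_rpow, ← Real.rpow_neg h0, ← Real.rpow_natCast, ← Real.rpow_mul h0]
    congr 1
    push_cast
    ring
  rw [e]
  push_cast
  rfl

theorem locFactor_zero550 (v : HeightOneSpectrum (𝓞 K)) (a : ℂ) : locFactor v a 0 = 1 := by
  have h := locFactor_nat550 v a 0
  simpa [hpoly] using h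

/-! ## 3. Local ideles and uniformisers -/

open scoped Classical in
theorem atF_auxT550 (v : HeightOneSpectrum (𝓞 K)) (x : (v.adicCompletion K)ˣ) :
    ∀ᶠ v' : HeightOneSpectrum (𝓞 K) in Filter.cofinite,
      Valued.v (((Function.update
        (fun v' : HeightOneSpectrum (𝓞 K) => (1 : (v'.adicCompletion K)ˣ)) v x v' :
          (v'.adicCompletion K)ˣ)) : v'.adicCompletion K) = 1 := by
  rw [Filter.eventually_cofinite]
  refine (Set.finite_singleton v).subset fun v' hv' => ?_
  by_contra hne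
  apply hv'
  have hne' : v' ≠ v := hne
  rw [Function.update_of_ne hne', Units.val_one, map_one]

open scoped Classical in
/-- The idele with component `x` at `v` and `1` at every other place. -/
def atFT550 (v : HeightOneSpectrum (𝓞 K)) (x : (v.adicCompletion K)ˣ) : (Adl K)ˣ :=
  mkIdT550 (fun _ => 1)
    (Function.update (fun v' : HeightOneSpectrum (𝓞 K) => (1 : (v'.adicCompletion K)ˣ)) v x)
    (atF_auxT550 v x)

open scoped Classical in
theorem atF_selfT550 (v : HeightOneSpectrum (𝓞 K)) (x : (v.adicCompletion K)ˣ) :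
    ((atFT550 v x : (Adl K)ˣ) : Adl K).2 v = (x : v.adicCompletion K) := by
  unfold atFT550
  rw [mkId_FT550, Function.update_self]

open scoped Classical in
theorem atF_neT550 {v v' : HeightOneSpectrum (𝓞 K)} (h : v' ≠ v) (x : (v.adicCompletion K)ˣ) :
    ((atFT550 v x : (Adl K)ˣ) : Adl K).2 v' = 1 := by
  unfold atFT550
  rw [mkId_FT550, Function.update_of_ne h, Units.val_one]

theorem atF_infT550 (v : HeightOneSpectrum (𝓞 K)) (x : (v.adicCompletion K)ˣ)
    (w : InfinitePlace K) : ((atFT550 v x : (Adl K)ˣ) : Adl K).1 w = 1 := by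
  unfold atFT550
  rw [mkId_IT550, Units.val_one]

/-- Uniformiser ideles exist. -/
theorem exists_unifIdele550 (v : HeightOneSpectrum (𝓞 K)) : ∃ t : (Adl K)ˣ, IsUnifIdele v t := by
  obtain ⟨ϖ, hϖ⟩ := exists_unif129 (K := K) (v := v)
  have hne : ϖ ≠ 0 := by
    intro h
    rw [h, map_zero] at hϖ
    exact WithZero.exp_ne_zero.symm hϖ
  refine ⟨atFT550 v (Units.mk0 ϖ hne), fun w => atF_infT550 v _ w,
    fun v' h => atF_neT550 h _, ?_⟩
  rw [atF_selfT550, Units.val_mk0, hϖ]

/-! ## 4. One place -/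

/-- The hypotheses on `W` at the places outside `S`. -/
structure IsRecW550 (a : HeightOneSpectrum (𝓞 K) → ℂ) (S : Finset (HeightOneSpectrum (𝓞 K)))
    (W : (Adl K)ˣ → ℂ) : Prop where
  hrec : ∀ v : HeightOneSpectrum (𝓞 K), v ∉ S → ∀ y t : (Adl K)ˣ, IsUnifIdele v t →
    (ordI v y < 0 → W y = 0) ∧
    (0 ≤ ordI v y →
      ((nv v : ℝ) : ℂ) * W (y * t) + W (y * t⁻¹) = ((Real.sqrt (nv v) : ℝ) : ℂ) * a v * W y)
  hunit : ∀ y u : (Adl K)ˣ, (∀ w : InfinitePlace K, (u : Adl K).1 w = 1) →
    (∀ v ∈ S, (u : Adl K).2 v = 1) →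
    (∀ v : HeightOneSpectrum (𝓞 K), v ∉ S → Valued.v ((u : Adl K).2 v) = 1) →
    W (y * u) = W y

/-- The recursion at one place: `W (y tᵐ) = locFactor m · W y` for `ord_v y = 0`. -/
theorem rec_pow550 {a : HeightOneSpectrum (𝓞 K) → ℂ} {S : Finset (HeightOneSpectrum (𝓞 K))}
    {W : (Adl K)ˣ → ℂ} (hW : IsRecW550 a S W) {v : HeightOneSpectrum (𝓞 K)} (hv : v ∉ S)
    {y t : (Adl K)ˣ} (ht : IsUnifIdele v t) (hy : ordI v y = 0) :
    ∀ m : ℕ, W (y * t ^ m) = locFactor v (a v) (m : ℤ) * W y ∧
      W (y * t ^ (m + 1)) = locFactor v (a v) ((m + 1 : ℕ) : ℤ) * W y := by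
  have hq : (0 : ℝ) < nv v := nv_pos550 v
  have hqc : ((nv v : ℝ) : ℂ) ≠ 0 := by exact_mod_cast hq.ne'
  have hs : (0 : ℝ) < Real.sqrt (nv v) := Real.sqrt_pos.2 hq
  -- `s = q r`, `q r² = 1` for `s = √q`, `r = 1 / √q`
  have hsr : ((Real.sqrt (nv v) : ℝ) : ℂ)
      = ((nv v : ℝ) : ℂ) * (((Real.sqrt (nv v))⁻¹ : ℝ) : ℂ) := by
    rw [← Complex.ofReal_mul]
    congr 1
    have := Real.mul_self_sqrt hq.le
    field_simp
    linarith
  have hqr2 : ((nv v : ℝ) : ℂ) * ((((Real.sqrt (nv v))⁻¹ : ℝ) : ℂ)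
      * (((Real.sqrt (nv v))⁻¹ : ℝ) : ℂ)) = 1 := by
    rw [← Complex.ofReal_mul, ← Complex.ofReal_mul, ← Complex.ofReal_one]
    congr 1
    have := Real.mul_self_sqrt hq.le
    field_simp
    linarith
  have hord : ∀ m : ℕ, ordI v (y * t ^ m) = m := by
    intro m
    rw [ordI_mul550, hy, ordI_pow550, ordI_unif550 ht]
    ring
  -- the first step
  have h1 : W (y * t ^ 1) = locFactor v (a v) ((1 : ℕ) : ℤ) * W y := by
    have hneg : W (y * t⁻¹) = 0 := by
      refine ((hW.hrec v hv (y * t⁻¹) t ht).1 ?_)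
      rw [ordI_mul550, hy, ordI_inv550, ordI_unif550 ht]
      norm_num
    have hr := (hW.hrec v hv y t ht).2 (by rw [hy])
    rw [hneg, add_zero] at hr
    rw [pow_one, locFactor_nat550, pow_one]
    have hp : hpoly (a v) 1 = a v := rfl
    rw [hp]
    apply mul_left_cancel₀ hqc
    linear_combination hr + (a v * W y) * hsr
  intro m
  induction m with
  | zero =>
    refine ⟨?_, by simpa using h1⟩
    rw [pow_zero, mul_one, Nat.cast_zero, locFactor_zero550, one_mul]
  | succ m ih =>
    refine ⟨ih.2, ?_⟩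
    have hr := (hW.hrec v hv (y * t ^ (m + 1)) t ht).2 (by rw [hord]; positivity)
    have e1 : y * t ^ (m + 1) * t = y * t ^ (m + 1 + 1) := by rw [mul_assoc, ← pow_succ]
    have e2 : y * t ^ (m + 1) * t⁻¹ = y * t ^ m := by
      rw [pow_succ, mul_assoc, mul_assoc, mul_inv_cancel, mul_one]
    rw [e1, e2, ih.1, ih.2, locFactor_nat550, locFactor_nat550] at hr
    rw [locFactor_nat550]
    have hp : hpoly (a v) (m + 1 + 1) = a v * hpoly (a v) (m + 1) - hpoly (a v) m := rfl
    rw [hp]
    apply mul_left_cancel₀ hqc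
    linear_combination hr
      + (a v * (((Real.sqrt (nv v))⁻¹ : ℝ) : ℂ) ^ (m + 1) * hpoly (a v) (m + 1) * W y) * hsr
      + ((((Real.sqrt (nv v))⁻¹ : ℝ) : ℂ) ^ m * hpoly (a v) m * W y) * hqr2

/-- **One place.**  `W y = locFactor (ord_v y) · W (y with the component at v replaced by 1)`. -/
theorem one_place550 {a : HeightOneSpectrum (𝓞 K) → ℂ} {S : Finset (HeightOneSpectrum (𝓞 K))}
    {W : (Adl K)ˣ → ℂ} (hW : IsRecW550 a S W) {v : HeightOneSpectrum (𝓞 K)} (hv : v ∉ S)
    (y : (Adl K)ˣ) :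
    W y = locFactor v (a v) (ordI v y) * W (repFT550 y v 1) := by
  obtain ⟨t, ht⟩ := exists_unifIdele550 v
  rcases lt_or_ge (ordI v y) 0 with hneg | hpos
  · rw [(hW.hrec v hv y t ht).1 hneg, locFactor_neg550 v (a v) hneg, zero_mul]
  · obtain ⟨m, hm⟩ := Int.eq_ofNat_of_zero_le hpos
    set y₁ : (Adl K)ˣ := repFT550 y v 1 with hy₁
    have hy₁0 : ordI v y₁ = 0 :=
      ordI_of_comp_one550 (by rw [hy₁, repF_selfT550, comp_oneFT550])
    have hrec := (rec_pow550 hW hv ht hy₁0 m).1
    rw [hm, ← hrec]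
    -- the unit part
    have hu : W (y₁ * t ^ m * ((y₁ * t ^ m)⁻¹ * y)) = W (y₁ * t ^ m) := by
      refine hW.hunit _ _ (fun w => ?_) (fun v' hv' => ?_) (fun v' _ => ?_)
      · rw [comp_mulIT550, comp_invIT550, comp_mulIT550, comp_powIT550, ht.1 w, hy₁,
          repF_infT550, one_pow, mul_one]
        exact inv_mul_cancel₀ (by
          rw [← uI_val550]; exact (uI550 w y).ne_zero)
      · have hne : v' ≠ v := fun h => hv (h ▸ hv')
        rw [comp_mulFT550, comp_invFT550, comp_mulFT550, comp_powFT550, ht.2.1 v' hne, hy₁,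
          repF_neT550 y hne, one_pow, mul_one]
        exact inv_mul_cancel₀ (comp_ne_zeroFT550 v' y)
      · by_cases hne : v' = v
        · subst hne
          have h1 : ordI v' ((y₁ * t ^ m)⁻¹ * y) = 0 := by
            rw [ordI_mul550, ordI_inv550, ordI_mul550, hy₁0, ordI_pow550, ordI_unif550 ht, hm]
            ring
          rw [val_eq_exp_ordI550, h1, neg_zero, WithZero.exp_zero]
        · rw [comp_mulFT550, comp_invFT550, comp_mulFT550, comp_powFT550, ht.2.1 v' hne, hy₁,
            repF_neT550 y hne, one_pow, mul_one,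
            inv_mul_cancel₀ (comp_ne_zeroFT550 v' y), map_one]
    rw [mul_inv_cancel_left] at hu
    exact hu

/-! ## 5. Finitely many places -/

open Classical in
/-- **THE CORE.**  For an idele `z` which is `1` at the infinite places:
`W z = W (z^S) · ∏ᶠ_{v ∉ S} locFactor v (a v) (ord_v z)`. -/
theorem torus_core550 {a : HeightOneSpectrum (𝓞 K) → ℂ} {S : Finset (HeightOneSpectrum (𝓞 K))}
    {W : (Adl K)ˣ → ℂ} (hW : IsRecW550 a S W) (z : (Adl K)ˣ)
    (hz : ∀ w : InfinitePlace K, (z : Adl K).1 w = 1) :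
    W z = W (glueT550 S z 1)
      * ∏ᶠ v : HeightOneSpectrum (𝓞 K), (if v ∈ S then 1 else locFactor v (a v) (ordI v z)) := by
  -- induction over a finite set of places
  have hT : ∀ (T : Finset (HeightOneSpectrum (𝓞 K))) (z : (Adl K)ˣ),
      (∀ w : InfinitePlace K, (z : Adl K).1 w = 1) →
      (∀ v : HeightOneSpectrum (𝓞 K), v ∉ S → v ∉ T → Valued.v ((z : Adl K).2 v) = 1) →
      W z = W (glueT550 S z 1)
        * ∏ v ∈ T, (if v ∈ S then 1 else locFactor v (a v) (ordI v z)) := by
    intro T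
    induction T using Finset.induction_on with
    | empty =>
      intro z hz hzT
      rw [Finset.prod_empty, mul_one]
      have hu : W (glueT550 S z 1 * ((glueT550 S z 1)⁻¹ * z)) = W (glueT550 S z 1) := by
        refine hW.hunit _ _ (fun w => ?_) (fun v hv => ?_) (fun v hv => ?_)
        · rw [comp_mulIT550, comp_invIT550, glue_infT550, comp_oneIT550, inv_one, one_mul, hz w]
        · rw [comp_mulFT550, comp_invFT550, glue_memT550 S z 1 hv]
          exact inv_mul_cancel₀ (comp_ne_zeroFT550 v z)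
        · rw [comp_mulFT550, comp_invFT550, glue_not_memT550 S z 1 hv, comp_oneFT550, inv_one,
            one_mul]
          exact hzT v hv (Finset.notMem_empty v)
      rw [mul_inv_cancel_left] at hu
      exact hu
    | insert v T hvT ih =>
      intro z hz hzT
      rw [Finset.prod_insert hvT]
      by_cases hvS : v ∈ S
      · rw [if_pos hvS, one_mul]
        refine ih z hz (fun v' hv' hv'T => hzT v' hv' ?_)
        intro hmem
        rcases Finset.mem_insert.1 hmem with h | h
        · exact hv' (h ▸ hvS)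
        · exact hv'T h
      · rw [if_neg hvS, one_place550 hW hvS z]
        have hglue : glueT550 S (repFT550 z v 1) 1 = glueT550 S z 1 := by
          refine idele_extT550 (fun w => ?_) (fun v' => ?_)
          · rw [glue_infT550, glue_infT550]
          · by_cases hv' : v' ∈ S
            · rw [glue_memT550 S _ 1 hv', glue_memT550 S _ 1 hv',
                repF_neT550 z (fun h : v' = v => hvS (h ▸ hv'))]
            · rw [glue_not_memT550 S _ 1 hv', glue_not_memT550 S _ 1 hv']
        have hprod : ∏ v' ∈ T, (if v' ∈ S then (1 : ℂ)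
              else locFactor v' (a v') (ordI v' (repFT550 z v 1)))
            = ∏ v' ∈ T, (if v' ∈ S then (1 : ℂ) else locFactor v' (a v') (ordI v' z)) := by
          refine Finset.prod_congr rfl fun v' hv' => ?_
          have hne : v' ≠ v := fun h => hvT (h ▸ hv')
          rw [ordI_congr550 (repF_neT550 z hne 1)]
        rw [ih (repFT550 z v 1) (fun w => by rw [repF_infT550, hz w]) (fun v' hv' hv'T => ?_),
          hglue, hprod]
        · ring
        · by_cases h : v' = v
          · subst h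
            rw [repF_selfT550, comp_oneFT550, map_one]
          · rw [repF_neT550 z h]
            refine hzT v' hv' ?_
            intro hmem
            rcases Finset.mem_insert.1 hmem with h' | h'
            · exact h h'
            · exact hv'T h'
  have hfin := finite_badT550 z
  rw [hT hfin.toFinset z hz (fun v _ hvT => by
    by_contra hcon
    exact hvT ((Set.Finite.mem_toFinset _).2 hcon))]
  congr 1
  symm
  refine finprod_eq_prod_of_mulSupport_subset _ ?_
  intro v hv
  rw [Function.mem_mulSupport] at hv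
  rw [Finset.mem_coe, Set.Finite.mem_toFinset]
  intro hval
  apply hv
  by_cases hvS : v ∈ S
  · rw [if_pos hvS]
  · rw [if_neg hvS, ordI_eq_zero_of_val550 hval, locFactor_zero550]

end Fermat.Agent.LT.T7.H550

end
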