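import Mathlib
import Fermat.Agent.LT.T7.H550.TorusCore

/-!
# Row LT, tower T7, node T7.14 `RigidC`, leaf T7.14.6b.5 `TorusAsmC` (registry row 1832)

OFF-MAIN (helper550, 2nd seat).  `torusAsmC550 K : Rigid.TorusAsmC K`, VERBATIM vs
`LT/T7/H62/RigidWhit.lean` (helper62, sha256 ba7c5f11b943), i.e.
`HeckeRecC K → ArchUniqC K → WhitInheritC K → MixC K → TorusC K`, for every number field `K`.

`f y = W (a(y^S)) / archProfile c 1`, `y^S` = the idele with the components of `y` on `S` and `1`
elsewhere (`glueT550 S y 1`); `K₀(c) > 0` (`besselK0_pos550`); the archimedean components by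
`ArchUniqC`, the finite places outside `S` by `torus_core550`.  Also `mixC550 : MixC K`
(`IdeleKit.lean`).
-/

set_option autoImplicit false

open IsDedekindDomain NumberField MeasureTheory AutomorphicForm
open Fermat.Agent.LT.H556.A0
open Fermat.Agent.LT.H129
open Fermat.Agent.LT.T7 Fermat.Agent.LT.T7.Rigid

noncomputable section

namespace Fermat.Agent.LT.T7.H550

variable {K : Type} [Field K] [NumberField K]

/-! ## 1. `K₀ > 0` -/

theorem half_le_cosh550 (u : ℝ) : u / 2 ≤ Real.cosh u := by
  rw [Real.cosh_eq]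
  have h1 := Real.add_one_le_exp u
  have h2 := Real.exp_pos (-u)
  linarith

theorem integrableOn_besselK0_550 {t : ℝ} (ht : 0 < t) :
    IntegrableOn (fun u : ℝ => Real.exp (-t * Real.cosh u)) (Set.Ioi 0) := by
  have h1 : IntegrableOn (fun u : ℝ => Real.exp ((-t / 2) * u)) (Set.Ioi 0) :=
    integrableOn_exp_mul_Ioi (by linarith) 0
  refine Integrable.mono' h1 ?_ ?_
  · exact (Real.continuous_exp.comp
      (continuous_const.mul Real.continuous_cosh)).aestronglyMeasurable
  · refine Filter.Eventually.of_forall fun u => ?_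
    rw [Real.norm_eq_abs, abs_of_pos (Real.exp_pos _)]
    apply Real.exp_le_exp.2
    have := half_le_cosh550 u
    nlinarith

theorem besselK0_pos550 {t : ℝ} (ht : 0 < t) : 0 < besselK0 t := by
  unfold besselK0
  rw [setIntegral_pos_iff_support_of_nonneg_ae
    (Filter.Eventually.of_forall fun u => (Real.exp_pos _).le) (integrableOn_besselK0_550 ht)]
  have hsupp : Function.support (fun u : ℝ => Real.exp (-t * Real.cosh u)) = Set.univ := by
    ext u
    simp [Function.mem_support, (Real.exp_pos _).ne']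
  rw [hsupp, Set.univ_inter, Real.volume_Ioi]
  exact ENNReal.zero_lt_top

/-! ## 2. The archimedean profile -/

theorem archProfile_congr550 (c : InfinitePlace K → ℝ) {y y' : (Adl K)ˣ}
    (h : ∀ w : InfinitePlace K, (y : Adl K).1 w = (y' : Adl K).1 w) :
    archProfile c y = archProfile c y' := by
  unfold archProfile
  refine Finset.prod_congr rfl fun w _ => ?_
  rw [h w]

theorem archProfile_one_pos550 {c : InfinitePlace K → ℝ} (hc : ∀ w, 0 < c w) :
    0 < archProfile c (1 : (Adl K)ˣ) := by
  unfold archProfile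
  refine Finset.prod_pos fun w _ => ?_
  rw [comp_oneIT550, norm_one, one_mul, mul_one]
  exact besselK0_pos550 (hc w)

/-! ## 3. The Whittaker function and the level -/

theorem whit_level550 {m : MeasurableSpace (Adl K)} (ψ : AddChar (Adl K) Circle)
    (ν : Measure (Adl K)) (D : Set (Adl K)) {𝔪 : Ideal (𝓞 K)} {φ : G K → ℂ}
    (h : ∀ u : G K, InLevelGroup 𝔪 u → ∀ g : G K, φ (g * u) = φ g) (u : G K)
    (hu : InLevelGroup 𝔪 u) (g : G K) : whit ψ ν D φ (g * u) = whit ψ ν D φ g := by
  unfold whit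
  congr 1
  funext x
  rw [← mul_assoc, h u hu]

/-! ## 4. The leaf -/

/-- **LEAF TORUS-ASM** (`Rigid.TorusAsmC`, registry row 1832). -/
theorem torusAsmC550 (K : Type) [Field K] [NumberField K] : TorusAsmC K := by
  classical
  intro hHR hAU hWI _ hcplx ψ hstd hnd ν D hνH hDm hDf hDfin
  obtain ⟨c, hc, hAU'⟩ := hAU hcplx ψ hstd hnd
  refine ⟨c, hc, fun π S φ hun hφ => ?_⟩
  have hP1 : ((archProfile c (1 : (Adl K)ˣ) : ℝ) : ℂ) ≠ 0 := by
    exact_mod_cast (archProfile_one_pos550 hc).ne'
  have hrecW : IsRecW550 π.a S (fun y => whit ψ ν D φ (dgA y)) :=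
    { hrec := fun v hv y t ht =>
        hHR hcplx ψ hstd hnd ν D hνH hDm hDf hDfin π S φ hun hφ v hv y t ht
      hunit := fun y u hI h1 h2 => by
        obtain ⟨𝔪, -, hS, hinv⟩ := hφ.level_inv
        show whit ψ ν D φ (dgA (y * u)) = whit ψ ν D φ (dgA y)
        rw [dgA_mul550]
        exact whit_level550 ψ ν D hinv _ (inLevelGroup_dgA_unit550 hS hI h1 h2) _ }
  have harch := hAU' (whit ψ ν D φ) (hWI ψ hstd ν D hνH hDm hDf hDfin π S φ hφ)
  refine ⟨fun y => whit ψ ν D φ (dgA (glueT550 S y 1))
    / ((archProfile c (1 : (Adl K)ˣ) : ℝ) : ℂ), fun y y' h => ?_, fun y => ?_⟩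
  · have e : glueT550 S y 1 = glueT550 S y' 1 := by
      refine idele_extT550 (fun w => ?_) (fun v => ?_)
      · rw [glue_infT550, glue_infT550]
      · by_cases hv : v ∈ S
        · rw [glue_memT550 S _ 1 hv, glue_memT550 S _ 1 hv, h v hv]
        · rw [glue_not_memT550 S _ 1 hv, glue_not_memT550 S _ 1 hv]
    show whit ψ ν D φ (dgA (glueT550 S y 1)) / _ = whit ψ ν D φ (dgA (glueT550 S y' 1)) / _
    rw [e]
  · have h1 := harch y (finPartT550 y) (fun v => (finPart_FT550 y v).symm)
    have hPf : archProfile c (finPartT550 y) = archProfile c (1 : (Adl K)ˣ) :=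
      archProfile_congr550 c (fun w => by rw [finPart_IT550, comp_oneIT550])
    rw [hPf] at h1
    have h2 := torus_core550 hrecW (finPartT550 y) (finPart_IT550 y)
    have hg : glueT550 S (finPartT550 y) 1 = glueT550 S y 1 := by
      refine idele_extT550 (fun w => ?_) (fun v => ?_)
      · rw [glue_infT550, glue_infT550]
      · by_cases hv : v ∈ S
        · rw [glue_memT550 S _ 1 hv, glue_memT550 S _ 1 hv, finPart_FT550]
        · rw [glue_not_memT550 S _ 1 hv, glue_not_memT550 S _ 1 hv]
    have hprod : (∏ᶠ v : HeightOneSpectrum (𝓞 K),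
          (if v ∈ S then (1 : ℂ) else locFactor v (π.a v) (ordI v (finPartT550 y))))
        = ∏ᶠ v : HeightOneSpectrum (𝓞 K),
          (if v ∈ S then (1 : ℂ) else locFactor v (π.a v) (ordI v y)) := by
      refine finprod_congr fun v => ?_
      rw [ordI_congr550 (finPart_FT550 y v)]
    simp only [hg, hprod] at h2
    unfold kirOut
    show whit ψ ν D φ (dgA y) = whit ψ ν D φ (dgA (glueT550 S y 1))
      / ((archProfile c (1 : (Adl K)ˣ) : ℝ) : ℂ) * _
    rw [div_mul_eq_mul_div, eq_div_iff hP1, h1, h2]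
    ring

end Fermat.Agent.LT.T7.H550

end
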